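import Mathlib
import Fermat.Agent.LT.T1.Spec

/-!
# Row LT, tower T1, sub-leaf T1.19 `LeafHeckeCoset` (helper724)

OFF-MAIN.  Proof of `Fermat.Agent.LT.T1.LeafHeckeCoset K = HeckeCosetC K` for every number field
`K`: at every finite place `v`

* a Hecke coset system (`A0.IsHeckeCosetSystem`) exists: the `q_v + 1` local elements
  `[[ϖ, r], [0, 1]]` (`r` running over representatives of `𝓞_K / 𝔭_v`) and `[[1, 0], [0, ϖ]]`;
* every Hecke coset system is a full system of representatives (pigeonhole on the map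
  "image of the reduction mod `𝔭_v`" with values in `Option (𝓞_K / 𝔭_v)`);
* a scalar uniformiser exists.

Only Mathlib, `LT/H556/A0.lean` and `LT/T1/Spec.lean` are used.
-/

set_option autoImplicit false

open IsDedekindDomain NumberField
open Fermat.Agent.LT.H556.A0

noncomputable section

namespace Fermat.Agent.LT.T1.H724

variable {K : Type} [Field K] [NumberField K]

/-! ## A. Components of adeles and of adelic matrices -/

/-- Evaluation of an adele at a finite place, as a ring homomorphism. -/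
def evFin724 (v : HeightOneSpectrum (𝓞 K)) : Adl K →+* v.adicCompletion K :=
  (RestrictedProduct.evalRingHom _ v).comp (RingHom.snd _ _)

/-- Evaluation of an adele at an infinite place, as a ring homomorphism. -/
def evInf724 (w : InfinitePlace K) : Adl K →+* w.Completion :=
  (Pi.evalRingHom _ w).comp (RingHom.fst _ _)

theorem evFin724_apply (v : HeightOneSpectrum (𝓞 K)) (x : Adl K) : evFin724 v x = x.2 v := rfl

theorem evInf724_apply (w : InfinitePlace K) (x : Adl K) : evInf724 w x = x.1 w := rfl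

theorem adl_ext724 {x y : Adl K} (h1 : ∀ w, evInf724 w x = evInf724 w y)
    (h2 : ∀ v, evFin724 v x = evFin724 v y) : x = y := by
  refine Prod.ext (funext h1) ?_
  exact RestrictedProduct.ext _ _ h2

theorem mat_ext724 {A B : Matrix (Fin 2) (Fin 2) (Adl K)}
    (h1 : ∀ w, A.map (evInf724 w) = B.map (evInf724 w))
    (h2 : ∀ v, A.map (evFin724 v) = B.map (evFin724 v)) : A = B := by
  ext i j : 2
  refine adl_ext724 (fun w => ?_) (fun v => ?_)
  · exact congrFun (congrFun (h1 w) i) j
  · exact congrFun (congrFun (h2 v) i) j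

theorem finComp_eq_map724 (v : HeightOneSpectrum (𝓞 K)) (g : G K) :
    finComp v g = (g : Matrix (Fin 2) (Fin 2) (Adl K)).map (evFin724 v) := rfl

theorem finComp_mul724 (v : HeightOneSpectrum (𝓞 K)) (g h : G K) :
    finComp v (g * h) = finComp v g * finComp v h := by
  simp only [finComp_eq_map724, Units.val_mul, Matrix.map_mul]

theorem finComp_one724 (v : HeightOneSpectrum (𝓞 K)) : finComp v (1 : G K) = 1 := by
  simp only [finComp_eq_map724, Units.val_one]
  exact Matrix.map_one _ (map_zero _) (map_one _)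

theorem finComp_mul_inv724 (v : HeightOneSpectrum (𝓞 K)) (g : G K) :
    finComp v g * finComp v g⁻¹ = 1 := by
  rw [← finComp_mul724, mul_inv_cancel, finComp_one724]

theorem finComp_inv_mul724 (v : HeightOneSpectrum (𝓞 K)) (g : G K) :
    finComp v g⁻¹ * finComp v g = 1 := by
  rw [← finComp_mul724, inv_mul_cancel, finComp_one724]

theorem finComp_inv724 (v : HeightOneSpectrum (𝓞 K)) (g : G K) :
    finComp v g⁻¹ = (finComp v g)⁻¹ :=
  (Matrix.inv_eq_right_inv (finComp_mul_inv724 v g)).symm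

/-! ## B. Local elements -/

open Classical in
/-- The adele with component `x` at `v` and the components of `a` at all other places. -/
def updAd724 (a : Adl K) (v : HeightOneSpectrum (𝓞 K)) (x : v.adicCompletion K) : Adl K :=
  (a.1, ⟨Function.update (fun v' => a.2 v') v x, by
    have h := a.2.2
    rw [Filter.eventually_cofinite] at h ⊢
    refine (h.union (Set.finite_singleton v)).subset ?_
    intro v' hv'
    by_cases hvv : v' = v
    · exact Or.inr hvv
    · refine Or.inl ?_
      have hv'' : Function.update (fun v' => a.2 v') v x v' ∉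
          (v'.adicCompletionIntegers K : Set (v'.adicCompletion K)) := hv'
      rw [Function.update_of_ne hvv] at hv''
      exact hv''⟩)

theorem evFin_updAd_self724 (a : Adl K) (v : HeightOneSpectrum (𝓞 K))
    (x : v.adicCompletion K) : evFin724 v (updAd724 a v x) = x := by
  classical
  change Function.update (fun v' => a.2 v') v x v = x
  exact Function.update_self ..

theorem evFin_updAd_ne724 (a : Adl K) {v v' : HeightOneSpectrum (𝓞 K)} (h : v' ≠ v)
    (x : v.adicCompletion K) : evFin724 v' (updAd724 a v x) = evFin724 v' a := by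
  classical
  change Function.update (fun v' => a.2 v') v x v' = a.2 v'
  exact Function.update_of_ne h ..

theorem evInf_updAd724 (a : Adl K) (v : HeightOneSpectrum (𝓞 K))
    (x : v.adicCompletion K) (w : InfinitePlace K) :
    evInf724 w (updAd724 a v x) = evInf724 w a := rfl

/-- The adelic matrix with component `M` at `v` and `1` at all other places. -/
def locMat724 (v : HeightOneSpectrum (𝓞 K)) (M : Matrix (Fin 2) (Fin 2) (v.adicCompletion K)) :
    Matrix (Fin 2) (Fin 2) (Adl K) :=
  fun i j => updAd724 ((1 : Matrix (Fin 2) (Fin 2) (Adl K)) i j) v (M i j)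

theorem locMat_map_self724 (v : HeightOneSpectrum (𝓞 K))
    (M : Matrix (Fin 2) (Fin 2) (v.adicCompletion K)) :
    (locMat724 v M).map (evFin724 v) = M := by
  ext i j : 1
  exact evFin_updAd_self724 _ v _

theorem locMat_map_ne724 {v v' : HeightOneSpectrum (𝓞 K)} (h : v' ≠ v)
    (M : Matrix (Fin 2) (Fin 2) (v.adicCompletion K)) :
    (locMat724 v M).map (evFin724 v') = 1 := by
  ext i j : 1
  rw [Matrix.map_apply, locMat724, evFin_updAd_ne724 _ h]
  rw [← Matrix.map_apply (f := evFin724 v'), Matrix.map_one _ (map_zero _) (map_one _)]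

theorem locMat_map_inf724 (v : HeightOneSpectrum (𝓞 K))
    (M : Matrix (Fin 2) (Fin 2) (v.adicCompletion K)) (w : InfinitePlace K) :
    (locMat724 v M).map (evInf724 w) = 1 := by
  ext i j : 1
  rw [Matrix.map_apply, locMat724, evInf_updAd724]
  rw [← Matrix.map_apply (f := evInf724 w), Matrix.map_one _ (map_zero _) (map_one _)]

theorem locMat_mul724 (v : HeightOneSpectrum (𝓞 K))
    (M N : Matrix (Fin 2) (Fin 2) (v.adicCompletion K)) :
    locMat724 v M * locMat724 v N = locMat724 v (M * N) := by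
  refine mat_ext724 (fun w => ?_) (fun v' => ?_)
  · rw [Matrix.map_mul, locMat_map_inf724, locMat_map_inf724, locMat_map_inf724, mul_one]
  · by_cases h : v' = v
    · subst h
      rw [Matrix.map_mul, locMat_map_self724, locMat_map_self724, locMat_map_self724]
    · rw [Matrix.map_mul, locMat_map_ne724 h, locMat_map_ne724 h, locMat_map_ne724 h, mul_one]

theorem locMat_one724 (v : HeightOneSpectrum (𝓞 K)) :
    locMat724 v (1 : Matrix (Fin 2) (Fin 2) (v.adicCompletion K)) = 1 := by
  refine mat_ext724 (fun w => ?_) (fun v' => ?_)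
  · rw [locMat_map_inf724, Matrix.map_one _ (map_zero _) (map_one _)]
  · by_cases h : v' = v
    · subst h
      rw [locMat_map_self724, Matrix.map_one _ (map_zero _) (map_one _)]
    · rw [locMat_map_ne724 h, Matrix.map_one _ (map_zero _) (map_one _)]

/-- The element of `GL₂(𝔸_K)` with component `M` at `v` (inverse `N`) and `1` elsewhere. -/
def locGL724 (v : HeightOneSpectrum (𝓞 K)) (M N : Matrix (Fin 2) (Fin 2) (v.adicCompletion K))
    (h1 : M * N = 1) (h2 : N * M = 1) : G K :=
  ⟨locMat724 v M, locMat724 v N, by rw [locMat_mul724, h1, locMat_one724],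
    by rw [locMat_mul724, h2, locMat_one724]⟩

theorem finComp_locGL724 (v : HeightOneSpectrum (𝓞 K))
    (M N : Matrix (Fin 2) (Fin 2) (v.adicCompletion K)) (h1 : M * N = 1) (h2 : N * M = 1) :
    finComp v (locGL724 v M N h1 h2) = M :=
  locMat_map_self724 v M

theorem finComp_locGL_inv724 (v : HeightOneSpectrum (𝓞 K))
    (M N : Matrix (Fin 2) (Fin 2) (v.adicCompletion K)) (h1 : M * N = 1) (h2 : N * M = 1) :
    finComp v (locGL724 v M N h1 h2)⁻¹ = N :=
  locMat_map_self724 v N

theorem isLocalAtFin_locGL724 (v : HeightOneSpectrum (𝓞 K))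
    (M N : Matrix (Fin 2) (Fin 2) (v.adicCompletion K)) (h1 : M * N = 1) (h2 : N * M = 1) :
    IsLocalAtFin v (locGL724 v M N h1 h2) := by
  refine ⟨fun w i j => ?_, fun v' hv' => ?_⟩
  · exact congrFun (congrFun (locMat_map_inf724 v M w) i) j
  · exact locMat_map_ne724 hv' M

/-! ## C. Valuations at `v` -/

theorem lt_one_iff724 (x : WithZero (Multiplicative ℤ)) : x < 1 ↔ x ≤ WithZero.exp (-1 : ℤ) := by
  have h := WithZero.lt_mul_exp_iff_le (x := x) (y := WithZero.exp (-1 : ℤ)) WithZero.exp_ne_zero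
  rw [← WithZero.exp_add] at h
  simpa using h

variable (v : HeightOneSpectrum (𝓞 K))

theorem val_algebraMap724 (k : K) :
    Valued.v (algebraMap K (v.adicCompletion K) k) = v.valuation K k :=
  HeightOneSpectrum.valuedAdicCompletion_eq_valuation' v k

theorem val_algebraMapInt724 (r : 𝓞 K) :
    Valued.v (algebraMap (𝓞 K) (v.adicCompletion K) r) = v.valuation K (algebraMap (𝓞 K) K r) :=
  HeightOneSpectrum.valuedAdicCompletion_eq_valuation' v _

theorem exists_unif724 : ∃ ϖ : v.adicCompletion K, Valued.v ϖ = WithZero.exp (-1 : ℤ) := by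
  obtain ⟨π, hπ⟩ := v.valuation_exists_uniformizer K
  exact ⟨algebraMap K (v.adicCompletion K) π, by rw [val_algebraMap724, hπ]⟩

theorem val_int_lt_one_iff724 (r : 𝓞 K) :
    Valued.v (algebraMap (𝓞 K) (v.adicCompletion K) r) < 1 ↔ r ∈ v.asIdeal := by
  rw [val_algebraMapInt724]
  exact v.valuation_lt_one_iff_mem r

theorem val_int_le_one724 (r : 𝓞 K) :
    Valued.v (algebraMap (𝓞 K) (v.adicCompletion K) r) ≤ 1 := by
  rw [val_algebraMapInt724]
  exact v.valuation_le_one r

variable {v}

/-- membership in the maximal ideal `𝔪_v` of `𝒪_v`, as a predicate on `K_v` -/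
def InM724 (x : v.adicCompletion K) : Prop := Valued.v x < 1

theorem inM_add724 {x y : v.adicCompletion K} (hx : InM724 x) (hy : InM724 y) :
    InM724 (x + y) :=
  lt_of_le_of_lt (Valuation.map_add _ _ _) (max_lt hx hy)

theorem inM_neg724 {x : v.adicCompletion K} (hx : InM724 x) : InM724 (-x) := by
  unfold InM724
  rwa [Valuation.map_neg]

theorem inM_sub724 {x y : v.adicCompletion K} (hx : InM724 x) (hy : InM724 y) :
    InM724 (x - y) := by
  rw [sub_eq_add_neg]
  exact inM_add724 hx (inM_neg724 hy)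

theorem inM_mul_left724 {a x : v.adicCompletion K} (ha : Valued.v a ≤ 1) (hx : InM724 x) :
    InM724 (a * x) := by
  unfold InM724 at hx ⊢
  rw [map_mul]
  exact mul_lt_one_of_nonneg_of_lt_one_right ha zero_le hx

theorem inM_mul_right724 {a x : v.adicCompletion K} (hx : InM724 x) (ha : Valued.v a ≤ 1) :
    InM724 (x * a) := by
  rw [mul_comm]
  exact inM_mul_left724 ha hx

theorem inM_zero724 : InM724 (0 : v.adicCompletion K) := by
  unfold InM724
  rw [map_zero]
  exact zero_lt_one

/-- cancel a unit of `𝒪_v` -/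
theorem inM_of_mul_unit724 {a x : v.adicCompletion K} (ha : Valued.v a = 1)
    (hx : InM724 (a * x)) : InM724 x := by
  unfold InM724 at hx ⊢
  rwa [map_mul, ha, one_mul] at hx

theorem not_inM_iff724 {a : v.adicCompletion K} (ha : Valued.v a ≤ 1) :
    ¬ InM724 a ↔ Valued.v a = 1 := by
  unfold InM724
  constructor
  · intro h
    exact le_antisymm ha (not_lt.1 h)
  · intro h
    rw [h]
    exact lt_irrefl _

/-! ## D. The type of an integral matrix of determinant a uniformiser -/

/-- scalar form of the key computation -/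
theorem entries_none724 {a b c d a' b' c' d' : v.adicCompletion K}
    (ha : Valued.v a ≤ 1) (hb : Valued.v b ≤ 1)
    (ha' : Valued.v a' ≤ 1) (hb' : Valued.v b' ≤ 1)
    (hc : InM724 c) (hd : InM724 d) (hc' : InM724 c') (hd' : InM724 d') :
    InM724 (d' * a + -b' * c) ∧ InM724 (d' * b + -b' * d) ∧
      InM724 (-c' * a + a' * c) ∧ InM724 (-c' * b + a' * d) := by
  have hnb' : Valued.v (-b') ≤ 1 := by rwa [Valuation.map_neg]
  refine ⟨inM_add724 (inM_mul_right724 hd' ha) (inM_mul_left724 hnb' hc),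
    inM_add724 (inM_mul_right724 hd' hb) (inM_mul_left724 hnb' hd),
    inM_add724 (inM_mul_right724 (inM_neg724 hc') ha) (inM_mul_left724 ha' hc),
    inM_add724 (inM_mul_right724 (inM_neg724 hc') hb) (inM_mul_left724 ha' hd)⟩

theorem entries_some724 {a b c d a' b' c' d' r : v.adicCompletion K}
    (hc : Valued.v c ≤ 1) (hd : Valued.v d ≤ 1)
    (hc' : Valued.v c' ≤ 1) (hd' : Valued.v d' ≤ 1)
    (h1 : InM724 (a - r * c)) (h2 : InM724 (b - r * d))
    (h1' : InM724 (a' - r * c')) (h2' : InM724 (b' - r * d')) :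
    InM724 (d' * a + -b' * c) ∧ InM724 (d' * b + -b' * d) ∧
      InM724 (-c' * a + a' * c) ∧ InM724 (-c' * b + a' * d) := by
  have e1 : d' * a + -b' * c = d' * (a - r * c) - (b' - r * d') * c := by ring
  have e2 : d' * b + -b' * d = d' * (b - r * d) - (b' - r * d') * d := by ring
  have e3 : -c' * a + a' * c = (a' - r * c') * c - c' * (a - r * c) := by ring
  have e4 : -c' * b + a' * d = (a' - r * c') * d - c' * (b - r * d) := by ring
  rw [e1, e2, e3, e4]
  exact ⟨inM_sub724 (inM_mul_left724 hd' h1) (inM_mul_right724 h2' hc),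
    inM_sub724 (inM_mul_left724 hd' h2) (inM_mul_right724 h2' hd),
    inM_sub724 (inM_mul_right724 h1' hc) (inM_mul_left724 hc' h1),
    inM_sub724 (inM_mul_right724 h1' hd) (inM_mul_left724 hc' h2)⟩

variable (v)

/-- integrality of a local matrix -/
def IsInt724 (M : Matrix (Fin 2) (Fin 2) (v.adicCompletion K)) : Prop :=
  ∀ i j, Valued.v (M i j) ≤ 1

/-- `Rel724 v M ρ`: the image of the reduction of `M` modulo `𝔪_v` is contained in the line
`ρ ∈ ℙ¹(𝓞_K / 𝔭_v)` (`none` = the line spanned by `(1, 0)`, `some r` = the line spanned by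
`(r, 1)`). -/
def Rel724 (M : Matrix (Fin 2) (Fin 2) (v.adicCompletion K)) :
    Option (𝓞 K ⧸ v.asIdeal) → Prop
  | none => InM724 (M 1 0) ∧ InM724 (M 1 1)
  | some ρ => ∃ r : 𝓞 K, Ideal.Quotient.mk v.asIdeal r = ρ ∧
      InM724 (M 0 0 - algebraMap (𝓞 K) (v.adicCompletion K) r * M 1 0) ∧
      InM724 (M 0 1 - algebraMap (𝓞 K) (v.adicCompletion K) r * M 1 1)

theorem exists_int_approx724 (x : v.adicCompletion K) (hx : Valued.v x ≤ 1) :
    ∃ r : 𝓞 K, InM724 (x - algebraMap (𝓞 K) (v.adicCompletion K) r) := by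
  obtain ⟨ϖ, hϖ⟩ := exists_unif724 v
  have hopen2 : IsOpen {y : v.adicCompletion K | Valued.v ((y - x) * ϖ⁻¹) ≤ 1} := by
    have h1 : IsOpen ((v.adicCompletionIntegers K : Set (v.adicCompletion K))) :=
      Valued.isOpen_valuationSubring _
    have h2 : Continuous (fun y : v.adicCompletion K => (y - x) * ϖ⁻¹) :=
      (continuous_id.sub continuous_const).mul continuous_const
    exact h1.preimage h2
  have hne : ({y : v.adicCompletion K | Valued.v ((y - x) * ϖ⁻¹) ≤ 1}).Nonempty :=
    ⟨x, by simp⟩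
  obtain ⟨k, hk⟩ := (HeightOneSpectrum.denseRange_algebraMap K v).exists_mem_open hopen2 hne
  have hk1 : Valued.v (algebraMap K (v.adicCompletion K) k - x) ≤ WithZero.exp (-1 : ℤ) := by
    have hk' : Valued.v ((algebraMap K (v.adicCompletion K) k - x) * ϖ⁻¹) ≤ 1 := hk
    rw [map_mul, map_inv₀, hϖ] at hk'
    rwa [mul_inv_le_iff₀ WithZero.exp_pos, one_mul] at hk'
  have hk2 : Valued.v (algebraMap K (v.adicCompletion K) k - x) < 1 := (lt_one_iff724 _).2 hk1
  have hk3 : v.valuation K k ≤ 1 := by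
    rw [← val_algebraMap724]
    have : algebraMap K (v.adicCompletion K) k = (algebraMap K (v.adicCompletion K) k - x) + x := by
      ring
    rw [this]
    exact (Valuation.map_add _ _ _).trans (max_le hk2.le hx)
  obtain ⟨a, ha⟩ := v.exists_valuation_sub_lt_of_integer hk3 1
  refine ⟨a, ?_⟩
  have ha' : Valued.v (algebraMap K (v.adicCompletion K) (algebraMap (𝓞 K) K a - k)) < 1 := by
    rw [val_algebraMap724]
    simpa using ha
  have e : x - algebraMap (𝓞 K) (v.adicCompletion K) a =
      -((algebraMap K (v.adicCompletion K) (algebraMap (𝓞 K) K a - k)) +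
        (algebraMap K (v.adicCompletion K) k - x)) := by
    rw [map_sub, ← IsScalarTower.algebraMap_apply]
    ring
  unfold InM724
  rw [e, Valuation.map_neg]
  exact lt_of_le_of_lt (Valuation.map_add _ _ _) (max_lt ha' hk2)

theorem exists_rel724 (M : Matrix (Fin 2) (Fin 2) (v.adicCompletion K)) (hM : IsInt724 v M)
    (hdet : InM724 M.det) : ∃ ρ, Rel724 v M ρ := by
  rw [Matrix.det_fin_two] at hdet
  by_cases hd : InM724 (M 1 1)
  · by_cases hc : InM724 (M 1 0)
    · exact ⟨none, hc, hd⟩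
    · -- `c = M 1 0` is a unit
      have hc1 : Valued.v (M 1 0) = 1 := (not_inM_iff724 (hM 1 0)).1 hc
      have hc0 : M 1 0 ≠ 0 := by
        intro h
        rw [h, map_zero] at hc1
        exact zero_ne_one hc1
      have hx : Valued.v (M 0 0 * (M 1 0)⁻¹) ≤ 1 := by
        rw [map_mul, map_inv₀, hc1, inv_one, mul_one]
        exact hM 0 0
      obtain ⟨r, hr⟩ := exists_int_approx724 v _ hx
      have h1 : InM724 (M 0 0 - algebraMap (𝓞 K) (v.adicCompletion K) r * M 1 0) := by
        have e : M 0 0 - algebraMap (𝓞 K) (v.adicCompletion K) r * M 1 0 =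
            (M 0 0 * (M 1 0)⁻¹ - algebraMap (𝓞 K) (v.adicCompletion K) r) * M 1 0 := by
          field_simp
        rw [e]
        exact inM_mul_right724 hr (hM 1 0)
      have h2 : InM724 (M 0 1 - algebraMap (𝓞 K) (v.adicCompletion K) r * M 1 1) := by
        refine inM_of_mul_unit724 hc1 ?_
        have e : M 1 0 * (M 0 1 - algebraMap (𝓞 K) (v.adicCompletion K) r * M 1 1) =
            M 1 1 * (M 0 0 - algebraMap (𝓞 K) (v.adicCompletion K) r * M 1 0) -
              (M 0 0 * M 1 1 - M 0 1 * M 1 0) := by ring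
        rw [e]
        exact inM_sub724 (inM_mul_left724 (hM 1 1) h1) hdet
      exact ⟨some (Ideal.Quotient.mk v.asIdeal r), r, rfl, h1, h2⟩
  · -- `d = M 1 1` is a unit
    have hd1 : Valued.v (M 1 1) = 1 := (not_inM_iff724 (hM 1 1)).1 hd
    have hd0 : M 1 1 ≠ 0 := by
      intro h
      rw [h, map_zero] at hd1
      exact zero_ne_one hd1
    have hx : Valued.v (M 0 1 * (M 1 1)⁻¹) ≤ 1 := by
      rw [map_mul, map_inv₀, hd1, inv_one, mul_one]
      exact hM 0 1
    obtain ⟨r, hr⟩ := exists_int_approx724 v _ hx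
    have h2 : InM724 (M 0 1 - algebraMap (𝓞 K) (v.adicCompletion K) r * M 1 1) := by
      have e : M 0 1 - algebraMap (𝓞 K) (v.adicCompletion K) r * M 1 1 =
          (M 0 1 * (M 1 1)⁻¹ - algebraMap (𝓞 K) (v.adicCompletion K) r) * M 1 1 := by
        field_simp
      rw [e]
      exact inM_mul_right724 hr (hM 1 1)
    have h1 : InM724 (M 0 0 - algebraMap (𝓞 K) (v.adicCompletion K) r * M 1 0) := by
      refine inM_of_mul_unit724 hd1 ?_
      have e : M 1 1 * (M 0 0 - algebraMap (𝓞 K) (v.adicCompletion K) r * M 1 0) =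
          (M 0 0 * M 1 1 - M 0 1 * M 1 0) +
            M 1 0 * (M 0 1 - algebraMap (𝓞 K) (v.adicCompletion K) r * M 1 1) := by ring
      rw [e]
      exact inM_add724 hdet (inM_mul_left724 (hM 1 0) h2)
    exact ⟨some (Ideal.Quotient.mk v.asIdeal r), r, rfl, h1, h2⟩

/-- Two integral matrices of the same type: `adj(N) * M ≡ 0 mod 𝔪_v`. -/
theorem adj_mul_of_rel724 (M N : Matrix (Fin 2) (Fin 2) (v.adicCompletion K))
    (hM : IsInt724 v M) (hN : IsInt724 v N) (ρ : Option (𝓞 K ⧸ v.asIdeal))
    (h1 : Rel724 v M ρ) (h2 : Rel724 v N ρ) :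
    InM724 (N 1 1 * M 0 0 + -N 0 1 * M 1 0) ∧ InM724 (N 1 1 * M 0 1 + -N 0 1 * M 1 1) ∧
      InM724 (-N 1 0 * M 0 0 + N 0 0 * M 1 0) ∧ InM724 (-N 1 0 * M 0 1 + N 0 0 * M 1 1) := by
  cases ρ with
  | none =>
    exact entries_none724 (hM 0 0) (hM 0 1) (hN 0 0) (hN 0 1) h1.1 h1.2 h2.1 h2.2
  | some ρ =>
    obtain ⟨r, hr, hr1, hr2⟩ := h1
    obtain ⟨r', hr', hr1', hr2'⟩ := h2
    have hrr : InM724 (algebraMap (𝓞 K) (v.adicCompletion K) (r - r')) := by
      unfold InM724
      rw [val_int_lt_one_iff724]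
      rw [← Ideal.Quotient.eq, hr, hr']
    rw [map_sub] at hrr
    -- transport the congruences of `N` from `r'` to `r`
    have k1 : InM724 (N 0 0 - algebraMap (𝓞 K) (v.adicCompletion K) r * N 1 0) := by
      have e : N 0 0 - algebraMap (𝓞 K) (v.adicCompletion K) r * N 1 0 =
          (N 0 0 - algebraMap (𝓞 K) (v.adicCompletion K) r' * N 1 0) -
            (algebraMap (𝓞 K) (v.adicCompletion K) r -
              algebraMap (𝓞 K) (v.adicCompletion K) r') * N 1 0 := by ring
      rw [e]
      exact inM_sub724 hr1' (inM_mul_right724 hrr (hN 1 0))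
    have k2 : InM724 (N 0 1 - algebraMap (𝓞 K) (v.adicCompletion K) r * N 1 1) := by
      have e : N 0 1 - algebraMap (𝓞 K) (v.adicCompletion K) r * N 1 1 =
          (N 0 1 - algebraMap (𝓞 K) (v.adicCompletion K) r' * N 1 1) -
            (algebraMap (𝓞 K) (v.adicCompletion K) r -
              algebraMap (𝓞 K) (v.adicCompletion K) r') * N 1 1 := by ring
      rw [e]
      exact inM_sub724 hr2' (inM_mul_right724 hrr (hN 1 1))
    exact entries_some724 (hM 1 0) (hM 1 1) (hN 1 0) (hN 1 1) hr1 hr2 k1 k2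

/-- Same type `⇒` `N⁻¹ M` is integral (for `det N` a uniformiser). -/
theorem inv_mul_int_of_rel724 (M N : Matrix (Fin 2) (Fin 2) (v.adicCompletion K))
    (hM : IsInt724 v M) (hN : IsInt724 v N) (hNdet : Valued.v N.det = WithZero.exp (-1 : ℤ))
    (ρ : Option (𝓞 K ⧸ v.asIdeal)) (h1 : Rel724 v M ρ) (h2 : Rel724 v N ρ) :
    IsInt724 v (N⁻¹ * M) := by
  obtain ⟨e00, e01, e10, e11⟩ := adj_mul_of_rel724 v M N hM hN ρ h1 h2
  have key : ∀ x : v.adicCompletion K, InM724 x → Valued.v ((N.det)⁻¹ * x) ≤ 1 := by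
    intro x hx
    rw [map_mul, map_inv₀, hNdet, mul_comm, mul_inv_le_iff₀ WithZero.exp_pos, one_mul]
    exact (lt_one_iff724 _).1 hx
  have hinv : N⁻¹ = (N.det)⁻¹ • N.adjugate := by
    rw [Matrix.inv_def, Ring.inverse_eq_inv']
  intro i j
  rw [hinv, Matrix.smul_mul, Matrix.smul_apply, smul_eq_mul, Matrix.adjugate_fin_two,
    Matrix.mul_apply, Fin.sum_univ_two]
  fin_cases i <;> fin_cases j
  · exact key _ e00
  · exact key _ e01
  · exact key _ e10
  · exact key _ e11

/-! ## E. Every Hecke coset system is full -/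

theorem isInt_of_isIntegralAt724 {g : G K} (hg : IsIntegralAt v g) : IsInt724 v (finComp v g) :=
  fun i j => (HeightOneSpectrum.mem_adicCompletionIntegers (𝓞 K) K v).1 (hg i j)

theorem isIntegralAt_of_isInt724 {g : G K} (hg : IsInt724 v (finComp v g)) : IsIntegralAt v g :=
  fun i j => (HeightOneSpectrum.mem_adicCompletionIntegers (𝓞 K) K v).2 (hg i j)

open Classical in
/-- The type of `g` at `v`: a point of `ℙ¹(𝓞_K / 𝔭_v)`. -/
def typ724 (g : G K) : Option (𝓞 K ⧸ v.asIdeal) :=
  if h : ∃ ρ, Rel724 v (finComp v g) ρ then h.choose else none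

theorem rel_typ724 (g : G K) (hg : IsIntegralAt v g)
    (hdet : Valued.v (finComp v g).det = WithZero.exp (-1 : ℤ)) :
    Rel724 v (finComp v g) (typ724 v g) := by
  have h : ∃ ρ, Rel724 v (finComp v g) ρ :=
    exists_rel724 v _ (isInt_of_isIntegralAt724 v hg) ((lt_one_iff724 _).2 hdet.le)
  unfold typ724
  rw [dif_pos h]
  exact h.choose_spec

theorem integral_of_typ_eq724 (g h : G K) (hg : IsIntegralAt v g)
    (hgdet : Valued.v (finComp v g).det = WithZero.exp (-1 : ℤ))
    (hh : IsIntegralAt v h) (hhdet : Valued.v (finComp v h).det = WithZero.exp (-1 : ℤ))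
    (e : typ724 v g = typ724 v h) : IsIntegralAt v (h⁻¹ * g) := by
  refine isIntegralAt_of_isInt724 v ?_
  rw [finComp_mul724, finComp_inv724]
  refine inv_mul_int_of_rel724 v _ _ (isInt_of_isIntegralAt724 v hg)
    (isInt_of_isIntegralAt724 v hh) hhdet (typ724 v h) ?_ (rel_typ724 v h hh hhdet)
  rw [← e]
  exact rel_typ724 v g hg hgdet

instance finiteQuot724 : Finite (𝓞 K ⧸ v.asIdeal) :=
  v.asIdeal.finiteQuotientOfFreeOfNeBot v.ne_bot

theorem card_option_quot724 :
    Nat.card (Option (𝓞 K ⧸ v.asIdeal)) = Ideal.absNorm v.asIdeal + 1 := by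
  rw [Ideal.absNorm_apply, Submodule.cardQuot_apply]
  have : Fintype (𝓞 K ⧸ v.asIdeal) := Fintype.ofFinite _
  rw [Nat.card_eq_fintype_card, Nat.card_eq_fintype_card, Fintype.card_option]

/-- **Fullness.**  Every Hecke coset system at `v` is a full system of representatives. -/
theorem full724 (H : Finset (G K)) (hH : IsHeckeCosetSystem v H) (g : G K)
    (hg : IsIntegralAt v g) (hgdet : Valued.v (finComp v g).det = WithZero.exp (-1 : ℤ)) :
    ∃ h ∈ H, IsIntegralAt v (h⁻¹ * g) := by
  classical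
  obtain ⟨hcard, hval, hne⟩ := hH
  have : Fintype (Option (𝓞 K ⧸ v.asIdeal)) := Fintype.ofFinite _
  have hinj : Set.InjOn (typ724 v) (H : Set (G K)) := by
    intro h hh h' hh' e
    by_contra hdiff
    exact hne h hh h' hh' hdiff
      (integral_of_typ_eq724 v h' h (hval h' hh').2.1 (hval h' hh').2.2 (hval h hh).2.1
        (hval h hh).2.2 e.symm)
  have hc : (H.image (typ724 v)).card = Fintype.card (Option (𝓞 K ⧸ v.asIdeal)) := by
    rw [Finset.card_image_of_injOn hinj, hcard, ← card_option_quot724 v,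
      Nat.card_eq_fintype_card]
  have huniv : H.image (typ724 v) = Finset.univ := Finset.eq_univ_of_card _ hc
  have hmem : typ724 v g ∈ H.image (typ724 v) := by
    rw [huniv]
    exact Finset.mem_univ _
  obtain ⟨h, hh, e⟩ := Finset.mem_image.1 hmem
  exact ⟨h, hh, integral_of_typ_eq724 v g h hg hgdet (hval h hh).2.1 (hval h hh).2.2 e.symm⟩

/-! ## F. Existence of a Hecke coset system and of a scalar uniformiser -/

/-- The representative matrices `[[1, 0], [0, ϖ]]` and `[[ϖ, r], [0, 1]]`. -/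
def repMat724 (ϖ : v.adicCompletion K) :
    Option (𝓞 K ⧸ v.asIdeal) → Matrix (Fin 2) (Fin 2) (v.adicCompletion K)
  | none => !![1, 0; 0, ϖ]
  | some ρ => !![ϖ, algebraMap (𝓞 K) (v.adicCompletion K) (Quotient.out ρ); 0, 1]

/-- The inverses of the representative matrices. -/
def repInv724 (ϖ : v.adicCompletion K) :
    Option (𝓞 K ⧸ v.asIdeal) → Matrix (Fin 2) (Fin 2) (v.adicCompletion K)
  | none => !![1, 0; 0, ϖ⁻¹]
  | some ρ => !![ϖ⁻¹, -(algebraMap (𝓞 K) (v.adicCompletion K) (Quotient.out ρ)) * ϖ⁻¹; 0, 1]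

theorem rep_mul_inv724 {ϖ : v.adicCompletion K} (hϖ : ϖ ≠ 0) (ρ : Option (𝓞 K ⧸ v.asIdeal)) :
    repMat724 v ϖ ρ * repInv724 v ϖ ρ = 1 := by
  cases ρ with
  | none =>
    simp only [repMat724, repInv724]
    ext i j : 1
    fin_cases i <;> fin_cases j <;> simp [Matrix.mul_apply, Fin.sum_univ_two, hϖ]
  | some ρ =>
    simp only [repMat724, repInv724]
    ext i j : 1
    fin_cases i <;> fin_cases j <;> simp [Matrix.mul_apply, Fin.sum_univ_two, hϖ]
    rw [mul_comm _ ϖ⁻¹, ← mul_assoc, mul_inv_cancel₀ hϖ, one_mul, neg_add_cancel]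

theorem rep_inv_mul724 {ϖ : v.adicCompletion K} (hϖ : ϖ ≠ 0) (ρ : Option (𝓞 K ⧸ v.asIdeal)) :
    repInv724 v ϖ ρ * repMat724 v ϖ ρ = 1 := by
  cases ρ with
  | none =>
    simp only [repMat724, repInv724]
    ext i j : 1
    fin_cases i <;> fin_cases j <;> simp [Matrix.mul_apply, Fin.sum_univ_two, hϖ]
  | some ρ =>
    simp only [repMat724, repInv724]
    ext i j : 1
    fin_cases i <;> fin_cases j <;> simp [Matrix.mul_apply, Fin.sum_univ_two, hϖ]
    rw [mul_comm ϖ⁻¹, add_neg_cancel]

/-- The representatives as elements of `GL₂(𝔸_K)` supported at `v`. -/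
def rep724 {ϖ : v.adicCompletion K} (hϖ : ϖ ≠ 0) (ρ : Option (𝓞 K ⧸ v.asIdeal)) : G K :=
  locGL724 v (repMat724 v ϖ ρ) (repInv724 v ϖ ρ) (rep_mul_inv724 v hϖ ρ) (rep_inv_mul724 v hϖ ρ)

theorem finComp_rep724 {ϖ : v.adicCompletion K} (hϖ : ϖ ≠ 0) (ρ : Option (𝓞 K ⧸ v.asIdeal)) :
    finComp v (rep724 v hϖ ρ) = repMat724 v ϖ ρ :=
  finComp_locGL724 v _ _ _ _

theorem finComp_rep_inv724 {ϖ : v.adicCompletion K} (hϖ : ϖ ≠ 0)
    (ρ : Option (𝓞 K ⧸ v.asIdeal)) :
    finComp v (rep724 v hϖ ρ)⁻¹ = repInv724 v ϖ ρ :=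
  finComp_locGL_inv724 v _ _ _ _

theorem isInt_repMat724 {ϖ : v.adicCompletion K} (hϖ : Valued.v ϖ = WithZero.exp (-1 : ℤ))
    (ρ : Option (𝓞 K ⧸ v.asIdeal)) : IsInt724 v (repMat724 v ϖ ρ) := by
  have h1 : Valued.v ϖ ≤ 1 := ((lt_one_iff724 _).2 hϖ.le).le
  have h0 : Valued.v (0 : v.adicCompletion K) ≤ 1 := by rw [map_zero]; exact zero_le_one
  have h11 : Valued.v (1 : v.adicCompletion K) ≤ 1 := by rw [map_one]
  cases ρ with
  | none =>
    intro i j
    fin_cases i <;> fin_cases j <;> simp [repMat724, h1]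
  | some ρ =>
    intro i j
    fin_cases i <;> fin_cases j <;> simp [repMat724, h1, val_int_le_one724]

theorem det_repMat724 (ϖ : v.adicCompletion K) (ρ : Option (𝓞 K ⧸ v.asIdeal)) :
    (repMat724 v ϖ ρ).det = ϖ := by
  cases ρ with
  | none => simp [repMat724, Matrix.det_fin_two]
  | some ρ => simp [repMat724, Matrix.det_fin_two]

theorem val_inv_unif724 {ϖ : v.adicCompletion K} (hϖ : Valued.v ϖ = WithZero.exp (-1 : ℤ)) :
    ¬ Valued.v ϖ⁻¹ ≤ 1 := by
  rw [map_inv₀, hϖ, not_le, ← WithZero.exp_neg, neg_neg, ← WithZero.exp_zero,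
    WithZero.exp_lt_exp]
  exact zero_lt_one

theorem not_int_rep724 {ϖ : v.adicCompletion K} (hϖ : Valued.v ϖ = WithZero.exp (-1 : ℤ))
    {ρ σ : Option (𝓞 K ⧸ v.asIdeal)} (hne : ρ ≠ σ) :
    ¬ IsInt724 v (repInv724 v ϖ ρ * repMat724 v ϖ σ) := by
  have hbad := val_inv_unif724 v hϖ
  intro hint
  cases ρ with
  | none =>
    cases σ with
    | none => exact hne rfl
    | some s =>
      apply hbad
      have := hint 1 1
      simpa [repMat724, repInv724, Matrix.mul_apply, Fin.sum_univ_two] using this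
  | some r =>
    cases σ with
    | none =>
      apply hbad
      have := hint 0 0
      simpa [repMat724, repInv724, Matrix.mul_apply, Fin.sum_univ_two] using this
    | some s =>
      have h01 := hint 0 1
      have e : (repInv724 v ϖ (some r) * repMat724 v ϖ (some s)) 0 1 =
          algebraMap (𝓞 K) (v.adicCompletion K) (Quotient.out s - Quotient.out r) * ϖ⁻¹ := by
        simp [repMat724, repInv724, Matrix.mul_apply, Fin.sum_univ_two]
        ring
      rw [e, map_mul] at h01
      have hu : Valued.v (algebraMap (𝓞 K) (v.adicCompletion K)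
          (Quotient.out s - Quotient.out r)) = 1 := by
        refine le_antisymm (val_int_le_one724 v _) (not_lt.1 ?_)
        rw [val_int_lt_one_iff724, ← Ideal.Quotient.eq, Ideal.Quotient.mk_out,
          Ideal.Quotient.mk_out]
        intro h
        exact hne (by rw [h])
      rw [hu, one_mul] at h01
      exact hbad h01

theorem isIntegralAt_one724 : IsIntegralAt v (1 : G K) := by
  refine isIntegralAt_of_isInt724 v ?_
  rw [finComp_one724]
  intro i j
  by_cases h : i = j
  · rw [Matrix.one_apply, if_pos h, map_one]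
  · rw [Matrix.one_apply, if_neg h, map_zero]
    exact zero_le_one

/-- **Existence.**  A Hecke coset system exists at `v`. -/
theorem exists_system724 : ∃ H : Finset (G K), IsHeckeCosetSystem v H := by
  classical
  obtain ⟨ϖ, hϖ⟩ := exists_unif724 v
  have hϖ0 : ϖ ≠ 0 := by
    intro h
    rw [h, map_zero] at hϖ
    exact WithZero.exp_ne_zero hϖ.symm
  have : Fintype (Option (𝓞 K ⧸ v.asIdeal)) := Fintype.ofFinite _
  have hnot : ∀ ρ σ : Option (𝓞 K ⧸ v.asIdeal), ρ ≠ σ →
      ¬ IsIntegralAt v ((rep724 v hϖ0 ρ)⁻¹ * rep724 v hϖ0 σ) := by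
    intro ρ σ hne hint
    have := isInt_of_isIntegralAt724 v hint
    rw [finComp_mul724, finComp_rep_inv724, finComp_rep724] at this
    exact not_int_rep724 v hϖ hne this
  have hinj : Function.Injective (rep724 v hϖ0) := by
    intro ρ σ e
    by_contra hne
    apply hnot ρ σ hne
    rw [e, inv_mul_cancel]
    exact isIntegralAt_one724 v
  refine ⟨Finset.univ.image (rep724 v hϖ0), ?_, ?_, ?_⟩
  · rw [Finset.card_image_of_injective _ hinj, Finset.card_univ, ← Nat.card_eq_fintype_card,
      card_option_quot724]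
  · intro h hh
    obtain ⟨ρ, -, rfl⟩ := Finset.mem_image.1 hh
    refine ⟨isLocalAtFin_locGL724 v _ _ _ _, isIntegralAt_of_isInt724 v ?_, ?_⟩
    · rw [finComp_rep724]
      exact isInt_repMat724 v hϖ ρ
    · rw [finComp_rep724, det_repMat724, hϖ]
  · intro h hh h' hh' hne
    obtain ⟨ρ, -, rfl⟩ := Finset.mem_image.1 hh
    obtain ⟨σ, -, rfl⟩ := Finset.mem_image.1 hh'
    exact hnot ρ σ (fun e => hne (by rw [e]))

/-- **Scalar uniformiser.** -/
theorem exists_scalar724 : ∃ z : G K, IsScalarUniformizerAt v z := by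
  obtain ⟨ϖ, hϖ⟩ := exists_unif724 v
  have hϖ0 : ϖ ≠ 0 := by
    intro h
    rw [h, map_zero] at hϖ
    exact WithZero.exp_ne_zero hϖ.symm
  have h1 : Matrix.diagonal (fun _ : Fin 2 => ϖ) * Matrix.diagonal (fun _ : Fin 2 => ϖ⁻¹) = 1 := by
    rw [Matrix.diagonal_mul_diagonal]
    simp [hϖ0]
  have h2 : Matrix.diagonal (fun _ : Fin 2 => ϖ⁻¹) * Matrix.diagonal (fun _ : Fin 2 => ϖ) = 1 := by
    rw [Matrix.diagonal_mul_diagonal]
    simp [hϖ0]
  exact ⟨locGL724 v _ _ h1 h2, isLocalAtFin_locGL724 v _ _ h1 h2, ϖ, hϖ,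
    finComp_locGL724 v _ _ h1 h2⟩

/-! ## G. The leaf -/

/-- **T1.19 `LeafHeckeCoset`** (= `HeckeCosetC K`), for every number field `K`. -/
theorem leafHeckeCoset724 (K : Type) [Field K] [NumberField K] : LeafHeckeCoset K := by
  intro v
  exact ⟨exists_system724 v, fun H hH g _ hg hdet => full724 v H hH g hg hdet,
    exists_scalar724 v⟩

end Fermat.Agent.LT.T1.H724
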